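import Fermat.Agent.Lib.TW.Euler.Count
import Fermat.Agent.Lib.TW.Euler.AddFun

/-!
# G4 / Part D, 2 : the invariants of an involution are exact in odd characteristic

For an element `c` with `c * c = 1` of a group `G` and a short exact sequence `0 → X → Y → Z → 0` of
representations of `G` over `ZMod p`, `p ≠ 2` : `|Y^{c = 1}| = |X^{c = 1}| · |Z^{c = 1}|`.
-/

set_option autoImplicit false
set_option linter.unusedSectionVars false
set_option linter.style.haveILetI false

open CategoryTheory

namespace Fermat.Agent.TW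

noncomputable section

variable {p : ℕ} [hp : Fact p.Prime] {G : Type} [Group G] (c : G)

/-- the fixed points of `c` -/
def edFix (X : Rep.{0} (ZMod p) G) : AddSubgroup X.V where
  carrier := {x | X.ρ c x = x}
  zero_mem' := map_zero _
  add_mem' {a b} ha hb := by
    change X.ρ c (a + b) = a + b
    rw [map_add, ha, hb]
  neg_mem' {a} ha := by
    change X.ρ c (-a) = -a
    rw [map_neg, ha]

lemma mem_edFix (X : Rep.{0} (ZMod p) G) (x : X.V) : x ∈ edFix c X ↔ X.ρ c x = x := Iff.rfl

lemma ed_card_edFix (X : Rep.{0} (ZMod p) G) :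
    Nat.card (edFix c X) = Nat.card {x : X.V // X.ρ c x = x} := rfl

/-- the map induced on the fixed points -/
def edFixMap {X Y : Rep.{0} (ZMod p) G} (f : X ⟶ Y) : edFix c X →+ edFix c Y where
  toFun x := ⟨f.hom x.1, by
    rw [mem_edFix, ← Rep.hom_comm_apply, (mem_edFix c X x.1).1 x.2]⟩
  map_zero' := Subtype.ext (map_zero _)
  map_add' a b := Subtype.ext (map_add _ _ _)

@[simp] lemma edFixMap_coe {X Y : Rep.{0} (ZMod p) G} (f : X ⟶ Y) (x : edFix c X) :
    ((edFixMap c f x : edFix c Y) : Y.V) = f.hom x.1 := rfl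

variable (hc : c * c = 1) (hp2 : p ≠ 2)

include hp2 in
lemma ed_two_ne_zero : (2 : ZMod p) ≠ 0 := by
  intro h
  have h1 : ((2 : ℕ) : ZMod p) = 0 := by exact_mod_cast h
  rw [ZMod.natCast_eq_zero_iff] at h1
  exact hp2 ((Nat.prime_dvd_prime_iff_eq hp.out Nat.prime_two).1 h1)

include hc hp2 in
/-- **the invariants of an involution are exact** -/
theorem ed_card_edFix_mul {X Y Z : Rep.{0} (ZMod p) G} (i : X ⟶ Y) (q : Y ⟶ Z)
    (hi : Function.Injective i.hom) (hq : Function.Surjective q.hom)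
    (hex : ∀ y : Y.V, q.hom y = 0 ↔ ∃ x : X.V, i.hom x = y) :
    Nat.card (edFix c Y) = Nat.card (edFix c X) * Nat.card (edFix c Z) := by
  have h2 := ed_two_ne_zero (p := p) hp2
  have hcc : ∀ (W : Rep.{0} (ZMod p) G) (w : W.V), W.ρ c (W.ρ c w) = w := fun W w => by
    rw [← Module.End.mul_apply, ← map_mul, hc, map_one]
    rfl
  have hinj : Function.Injective (edFixMap c i) := fun a b hab =>
    Subtype.ext (hi (congrArg Subtype.val hab))
  have hsurj : Function.Surjective (edFixMap c q) := by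
    rintro ⟨z, hz⟩
    obtain ⟨y, rfl⟩ := hq z
    rw [mem_edFix] at hz
    refine ⟨⟨(2 : ZMod p)⁻¹ • (y + Y.ρ c y), ?_⟩, Subtype.ext ?_⟩
    · rw [mem_edFix, map_smul, map_add, hcc Y y, add_comm]
    · change q.hom ((2 : ZMod p)⁻¹ • (y + Y.ρ c y)) = q.hom y
      rw [map_smul, map_add, Rep.hom_comm_apply, hz, ← two_smul (ZMod p) (q.hom y), smul_smul,
        inv_mul_cancel₀ h2, one_smul]
  have hexact : ∀ y : edFix c Y, edFixMap c q y = 0 ↔ ∃ x, edFixMap c i x = y := by
    rintro ⟨y, hy⟩
    constructor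
    · intro h
      have h1 : q.hom y = 0 := congrArg Subtype.val h
      obtain ⟨x, rfl⟩ := (hex y).1 h1
      refine ⟨⟨x, ?_⟩, rfl⟩
      rw [mem_edFix] at hy ⊢
      apply hi
      rw [Rep.hom_comm_apply, hy]
    · rintro ⟨x, hx⟩
      apply Subtype.ext
      have h1 : i.hom x.1 = y := congrArg Subtype.val hx
      change q.hom y = 0
      exact (hex y).2 ⟨x.1, h1⟩
  rw [ec_card_of_exact (edFixMap c i) (edFixMap c q) hexact,
    ec_card_range_of_injective _ hinj, ec_card_range_of_surjective _ hsurj]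

end

end Fermat.Agent.TW
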