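import Fermat.Agent.Lib.TW.Euler.PartD.Finite
import Fermat.Agent.Lib.TW.Euler.PartD.Invariants
import Fermat.Agent.Lib.CFT.Coh.AugRep

/-!
# G4 / Part D, 3 : the defect `ecChi d` of the Euler characteristic formula is an additive function
-/

set_option autoImplicit false
set_option linter.unusedSectionVars false
set_option linter.style.haveILetI false

open CategoryTheory

namespace Fermat.Agent.TW

open Fermat.Agent.CFT Fermat.Agent.CFT.Duality Fermat.Agent.CFT.Duality.TowerModule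
open Fermat.Agent.CFT.Duality.PTData Fermat.Agent.CFT.Coh

noncomputable section

variable {p : ℕ} [hp : Fact p.Prime] {S : Finset Nat.Primes} {L₀ : Level} {h₀ : L₀.IsS S}
  (d : PTData p S L₀ h₀)

/-! ### The tower module `A_M` -/

lemma ed_ecAM_finite (M : Rep.{0} (ZMod p) L₀.G) (hM : Finite M.V) (j : (levelTower L₀).ι) :
    Finite ((ecAM L₀ M).C j) := hM

lemma ed_ecAM_ptors (M : Rep.{0} (ZMod p) L₀.G) (j : (levelTower L₀).ι)
    (x : (ecAM L₀ M).C j) : p • x = 0 := by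
  change p • (show M.V from x) = 0
  rw [← Nat.cast_smul_eq_nsmul (ZMod p) p (show M.V from x), ZMod.natCast_self, zero_smul]

/-- functoriality of `A_M` -/
def edAMHom {X Y : Rep.{0} (ZMod p) L₀.G} (f : X ⟶ Y) : (ecAM L₀ X).Hom (ecAM L₀ Y) :=
  inflFromHom (T := levelTower L₀) (baseLevel L₀) (baseLevel_le L₀) (intHom f)

@[simp] lemma edAMHom_apply {X Y : Rep.{0} (ZMod p) L₀.G} (f : X ⟶ Y) (j : (levelTower L₀).ι)
    (x : X.V) : ((edAMHom f).f j).hom x = f.hom x := rfl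

lemma edAMHom_isIso {X Y : Rep.{0} (ZMod p) L₀.G} (f : X ⟶ Y) [IsIso f]
    (j : (levelTower L₀).ι) : IsIso ((edAMHom f).f j) := by
  apply ec_isIso_of_bijective
  have h1 : Function.Bijective f.hom := by
    have := (isIso_iff_bijective ((forget (Rep (ZMod p) L₀.G)).map f)).1 inferInstance
    exact this
  exact h1

/-- `e_r` is invariant under isomorphisms -/
theorem ed_ecE_iso {X Y : Rep.{0} (ZMod p) L₀.G} (e : X ≅ Y) (r : ℕ) :
    ecE d X r = ecE d Y r := by
  haveI : ∀ j, IsIso (((edAMHom e.hom).filter (isSPred S L₀) (isSPred_nonempty h₀)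
      (isSPred_directed S L₀)).f j) := fun j => edAMHom_isIso e.hom j.1
  exact (Nat.card_congr (ExtLim.congrLeft ((edAMHom e.hom).filter (isSPred S L₀)
    (isSPred_nonempty h₀) (isSPred_directed S L₀)).toIso d.E r).toEquiv).symm

/-- the fixed points of `c` are invariant under isomorphisms -/
theorem ed_card_fix_iso {X Y : Rep.{0} (ZMod p) L₀.G} (e : X ≅ Y) :
    Nat.card {x : X.V // X.ρ (ecCbar L₀) x = x} = Nat.card {y : Y.V // Y.ρ (ecCbar L₀) y = y} := by
  refine Nat.card_congr ⟨fun x => ⟨e.hom.hom x.1, ?_⟩, fun y => ⟨e.inv.hom y.1, ?_⟩, fun x => ?_,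
    fun y => ?_⟩
  · rw [← Rep.hom_comm_apply, x.2]
  · rw [← Rep.hom_comm_apply, y.2]
  · apply Subtype.ext
    change (e.hom ≫ e.inv).hom x.1 = x.1
    rw [e.hom_inv_id]
    rfl
  · apply Subtype.ext
    change (e.inv ≫ e.hom).hom y.1 = y.1
    rw [e.inv_hom_id]
    rfl

/-- `ecChi` is invariant under isomorphisms -/
theorem ed_ecChi_iso (X Y : Rep.{0} (ZMod p) L₀.G) (h : Nonempty (X ≅ Y)) :
    ecChi d X = ecChi d Y := by
  obtain ⟨e⟩ := h
  unfold ecChi
  rw [ed_ecE_iso d e 0, ed_ecE_iso d e 1, ed_ecE_iso d e 2, ed_card_fix_iso e]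

/-! ### Additivity -/

/-- the short exact sequence of tower modules attached to a short exact sequence of
representations -/
def edAMShortExact {X Y Z : Rep.{0} (ZMod p) L₀.G} (i : X ⟶ Y) (q : Y ⟶ Z)
    (hi : Function.Injective i.hom) (hq : Function.Surjective q.hom)
    (hex : ∀ y : Y.V, q.hom y = 0 ↔ ∃ x : X.V, i.hom x = y) :
    ShortExact (ecAM L₀ X) (ecAM L₀ Y) (ecAM L₀ Z) :=
  inflFromShortExact (T := levelTower L₀) (baseLevel L₀) (baseLevel_le L₀) (intHom i) (intHom q)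
    (by
      ext x
      exact (hex (i.hom x)).2 ⟨x, rfl⟩)
    (shortExact_of_functions (X := ShortComplex.mk (intHom i) (intHom q) (by
        ext x
        exact (hex (i.hom x)).2 ⟨x, rfl⟩)) hi hq (fun y hy => (hex y).1 hy))

lemma ed_ecCbar_mul_self : ecCbar L₀ * ecCbar L₀ = 1 := by
  unfold ecCbar
  rw [← map_mul, complexConjugation_mul_self, map_one]

lemma ed_ecE_pos (q₀ : ↥S) (M : Rep.{0} (ZMod p) L₀.G) (hM : Finite M.V) (r : ℕ) (hr : r ≤ 2) :
    0 < ecE d M r := by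
  haveI := ed_finite_extLim_E d (ecAM L₀ M) (ed_ecAM_finite M hM) (ed_ecAM_ptors M) q₀ r hr
  exact Nat.card_pos

lemma ed_card_fix_pos (M : Rep.{0} (ZMod p) L₀.G) (hM : Finite M.V) :
    0 < Nat.card {x : M.V // M.ρ (ecCbar L₀) x = x} := by
  haveI : Nonempty {x : M.V // M.ρ (ecCbar L₀) x = x} := ⟨⟨0, map_zero _⟩⟩
  exact Nat.card_pos

/-- **`ecChi` is additive** -/
theorem ed_ecChi_add (hp2 : p ≠ 2) (q₀ : ↥S) (X Y Z : Rep.{0} (ZMod p) L₀.G) (i : X ⟶ Y)
    (q : Y ⟶ Z) (hY : Module.Finite (ZMod p) Y.V) (hi : Function.Injective i.hom)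
    (hq : Function.Surjective q.hom)
    (hex : ∀ y : Y.V, q.hom y = 0 ↔ ∃ x : X.V, i.hom x = y) :
    ecChi d Y = ecChi d X + ecChi d Z := by
  have hYf : Finite Y.V := Module.finite_of_finite (ZMod p)
  have hXf : Finite X.V := Finite.of_injective _ hi
  have hZf : Finite Z.V := Finite.of_surjective _ hq
  have h9 := ec_nine_left d (edAMShortExact i q hi hq hex) q₀ (ed_ecAM_finite Z hZf)
    (ed_ecAM_ptors Z)
  have hfix := ed_card_edFix_mul (ecCbar L₀) ed_ecCbar_mul_self hp2 i q hi hq hex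
  rw [ed_card_edFix, ed_card_edFix, ed_card_edFix] at hfix
  have h9' : ecE d Z 0 * ecE d X 0 * ecE d Y 1 * ecE d Z 2 * ecE d X 2 =
      ecE d Y 0 * ecE d Z 1 * ecE d X 1 * ecE d Y 2 := h9
  have pos : ∀ (M : Rep.{0} (ZMod p) L₀.G), Finite M.V → ∀ r, r ≤ 2 →
      ((ecE d M r : ℕ) : ℝ) ≠ 0 := fun M hM r hr =>
    Nat.cast_ne_zero.2 (ed_ecE_pos d q₀ M hM r hr).ne'
  have posf : ∀ (M : Rep.{0} (ZMod p) L₀.G), Finite M.V →
      ((Nat.card {x : M.V // M.ρ (ecCbar L₀) x = x} : ℕ) : ℝ) ≠ 0 := fun M hM =>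
    Nat.cast_ne_zero.2 (ed_card_fix_pos M hM).ne'
  have h9R : (ecE d Z 0 : ℝ) * ecE d X 0 * ecE d Y 1 * ecE d Z 2 * ecE d X 2 =
      ecE d Y 0 * ecE d Z 1 * ecE d X 1 * ecE d Y 2 := by exact_mod_cast h9'
  have hfixR : ((Nat.card {x : Y.V // Y.ρ (ecCbar L₀) x = x} : ℕ) : ℝ) =
      (Nat.card {x : X.V // X.ρ (ecCbar L₀) x = x} : ℕ) *
        (Nat.card {x : Z.V // Z.ρ (ecCbar L₀) x = x} : ℕ) := by exact_mod_cast hfix
  have hl := congrArg Real.log h9R
  have hX0 := pos X hXf 0 (by norm_num)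
  have hX1 := pos X hXf 1 (by norm_num)
  have hX2 := pos X hXf 2 le_rfl
  have hY0 := pos Y hYf 0 (by norm_num)
  have hY1 := pos Y hYf 1 (by norm_num)
  have hY2 := pos Y hYf 2 le_rfl
  have hZ0 := pos Z hZf 0 (by norm_num)
  have hZ1 := pos Z hZf 1 (by norm_num)
  have hZ2 := pos Z hZf 2 le_rfl
  rw [Real.log_mul (by positivity) hX2, Real.log_mul (by positivity) hZ2,
    Real.log_mul (by positivity) hY1, Real.log_mul hZ0 hX0,
    Real.log_mul (by positivity) hY2, Real.log_mul (by positivity) hX1,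
    Real.log_mul hY0 hZ1] at hl
  unfold ecChi
  rw [hfixR, Real.log_mul (posf X hXf) (posf Z hZf)]
  linarith

/-- **the defect of the Euler characteristic formula, as an additive function** -/
def edChiFun (hp2 : p ≠ 2) (q₀ : ↥S) : EcAddFun (ZMod p) L₀.G where
  f := ecChi d
  iso := ed_ecChi_iso d
  add := ed_ecChi_add d hp2 q₀

end

end Fermat.Agent.TW
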