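import Fermat.Agent.Lib.TW.Euler.PartD.Main
import Fermat.Agent.Lib.TW.Euler.BaseCaseFinal

/-!
# P10 / G4 : the global Euler characteristic formula (Tate), unconditional in the Poitou–Tate data

`ec_euler_formula` : `EcEulerFormula d` from the arithmetic input `EulerInput d`
(= leaf (D) `ec_euler_formula_of_base` + the base case `ec_base_case`).
-/

set_option autoImplicit false
set_option linter.unusedSectionVars false

namespace Fermat.Agent.TW

open Fermat.Agent.CFT Fermat.Agent.CFT.Duality Fermat.Agent.CFT.Duality.TowerModule
open Fermat.Agent.CFT.Duality.PTData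

noncomputable section

variable {p : ℕ} [Fact p.Prime] {S : Finset Nat.Primes} {L₀ : Level} {h₀ : L₀.IsS S}

/-- **Tate's global Euler characteristic formula** for the Poitou–Tate data `d`. -/
theorem ec_euler_formula (d : PTData p S L₀ h₀) (hE : EulerInput d) (hp2 : p ≠ 2) (q₀ : ↥S) :
    EcEulerFormula d :=
  ec_euler_formula_of_base d hp2 q₀ (ec_base_case d hE q₀)

end

end Fermat.Agent.TW
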