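import Fermat.Agent.Lib.TW.Euler.Chi
import Fermat.Agent.Lib.TW.Local.DoubleDual
import Fermat.Agent.Lib.CFT.Duality.KummerIso

/-!
# G4 / Part D, 1 : finiteness and cardinalities of `Ext^r(A_S, E)`, `r = 0, 1, 2`

For `d : PTData p S L₀ h₀` and a finite `p`-torsion cartesian `A` over the levels above `L₀` :

* `edEquivZero : Ext⁰(A_S, E) ≃ H⁰_S(Hom(A, μ))`, `edEquivOne : Ext¹(A_S, E) ≃ H¹_S(Hom(A, μ))`;
* `ed_finite_extLim_E d A hfin hA q₀ r` (`r ≤ 2`) : `Ext^r(A_S, E)` is finite.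
-/

set_option autoImplicit false
set_option linter.unusedSectionVars false
set_option linter.style.haveILetI false

open CategoryTheory

namespace Fermat.Agent.TW

open Fermat.Agent.CFT Fermat.Agent.CFT.Duality Fermat.Agent.CFT.Duality.TowerModule
open Fermat.Agent.CFT.Duality.PTData

noncomputable section

variable {p : ℕ} [hp : Fact p.Prime] {S : Finset Nat.Primes} {L₀ : Level} {h₀ : L₀.IsS S}
  (d : PTData p S L₀ h₀) (A : TowerModule ℤ (levelTower L₀)) [A.IsCartesian]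
  (hfin : ∀ j, Finite (A.C j)) (hA : ∀ j (x : A.C j), p • x = 0)

/-- `Ext⁰(A_S, E) ≃ H⁰_S(Hom(A, μ))` -/
def edEquivZero : ExtLim (AS S h₀ A) d.E 0 ≃+ HLim ((AS S h₀ A).homTo d.μS) 0 :=
  (theta0Lim (AS S h₀ A) d.E).trans
    (d.kappaEquiv (AS S h₀ A) (fun j a => hA j.1 a) 0).symm

/-- `Ext¹(A_S, E) ≃ H¹_S(Hom(A, μ))` -/
def edEquivOne : ExtLim (AS S h₀ A) d.E 1 ≃+ HLim ((AS S h₀ A).homTo d.μS) 1 :=
  d.thetaE1 (AS S h₀ A) (fun j a => hA j.1 a) (fun j => hfin j.1)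

include hfin hA in
/-- `Hom(A, μ)` is finite and killed by `p` -/
lemma ed_homTo_isFinPTorsion :
    haveI := d.μ_cart
    (A.homTo d.μ).IsFinPTorsion p :=
  haveI := d.μ_cart
  haveI : A.IsFinPTorsion p := ⟨hfin, hA⟩
  tlHomTo_isFinPTorsion p A d.μ (tl_mu_finite p d.μ d.μ_card)

include hfin hA in
/-- `H⁰_S(Hom(A, μ))` is finite -/
theorem ed_finite_hom_zero : Finite (HLim ((AS S h₀ A).homTo d.μS) 0) := by
  haveI := d.μ_cart
  haveI := ed_homTo_isFinPTorsion d A hfin hA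
  haveI : Finite ((AS S h₀ (A.homTo d.μ)).C (botS S L₀ h₀)) :=
    IsFinPTorsion.finite (p := p) (A := A.homTo d.μ) _
  exact finite_hlim_zero (AS S h₀ (A.homTo d.μ)) (b := botS S L₀ h₀) botS_le

include hfin hA in
/-- `H¹_S(Hom(A, μ))` is finite -/
theorem ed_finite_hom_one : Finite (HLim ((AS S h₀ A).homTo d.μS) 1) := by
  haveI := d.μ_cart
  haveI := ed_homTo_isFinPTorsion d A hfin hA
  exact d.finite_hlim_one_global (A.homTo d.μ)
    (fun j => IsFinPTorsion.finite (p := p) (A := A.homTo d.μ) j)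
    (fun j x => IsFinPTorsion.torsion (p := p) (A := A.homTo d.μ) j x)

include hfin hA in
/-- `Ext^r(A_S, E)` is finite for `r ≤ 2` -/
theorem ed_finite_extLim_E (q₀ : ↥S) (r : ℕ) (hr : r ≤ 2) :
    Finite (ExtLim (AS S h₀ A) d.E r) := by
  interval_cases r
  · haveI := ed_finite_hom_zero d A hfin hA
    exact Finite.of_equiv _ (edEquivZero d A hA).symm.toEquiv
  · haveI := ed_finite_hom_one d A hfin hA
    exact Finite.of_equiv _ (edEquivOne d A hfin hA).symm.toEquiv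
  · exact (ec_card_extLim_E_two d A hfin hA q₀).1

end

end Fermat.Agent.TW
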