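import Fermat.Agent.Lib.TW.Euler.PartD.ChiFun
import Fermat.Agent.Lib.TW.Euler.ArtinInd.Main
import Fermat.Agent.Lib.CFT.Duality.DualTwistTower

/-!
# G4 / Part D : from the base case to Tate's global Euler characteristic formula

`ec_euler_formula_of_base` : if the defect `ecChi d` vanishes on the modules coinduced from cyclic
subgroups of order prime to `p`, then the global Euler characteristic formula `EcEulerFormula d`
holds for all finite `p`-torsion cartesian tower modules.
-/

set_option autoImplicit false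
set_option linter.unusedSectionVars false
set_option linter.style.haveILetI false

open CategoryTheory

namespace Fermat.Agent.TW

open Fermat.Agent.CFT Fermat.Agent.CFT.Duality Fermat.Agent.CFT.Duality.TowerModule
open Fermat.Agent.CFT.Duality.PTData

noncomputable section

variable {p : ℕ} [hp : Fact p.Prime] {S : Finset Nat.Primes} {L₀ : Level} {h₀ : L₀.IsS S}

/-- **Tate's global Euler characteristic formula**, in the form consumed by G3 -/
def EcEulerFormula (d : PTData p S L₀ h₀) : Prop :=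
  ∀ (A : TowerModule ℤ (levelTower L₀)) [A.IsCartesian], (∀ j, Finite (A.C j)) →
    (∀ j (x : A.C j), p • x = 0) →
    Nat.card (HLim ((AS S h₀ A).homTo d.μS) 1) * Nat.card (HLim (AS S h₀ A) 0) =
      Nat.card (ShaLim (isSPred S L₀) (isSPred_nonempty h₀) (isSPred_directed S L₀)
        (fun q : ↥S => decompFamily q.1 L₀) A 1) *
        Nat.card (HLim ((AS S h₀ A).homTo d.μS) 0) *
        (∏ q : ↥S, Nat.card (HLim (AqS S h₀ q.1 A) 0)) *
        Nat.card {x : (A.C (baseLevel L₀)).V // (A.C (baseLevel L₀)).ρ (ecCbar L₀) x = x}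

variable (d : PTData p S L₀ h₀)

/-- the vanishing of the defect on all finite modules, from the base case -/
theorem ed_ecChi_eq_zero (hp2 : p ≠ 2) (q₀ : ↥S)
    (hbase : ∀ (U : Subgroup L₀.G), IsCyclic U → ¬ p ∣ Nat.card U →
      ∀ (N : Rep.{0} (ZMod p) U), Finite N.V → ecChi d (Rep.coind U.subtype N) = 0)
    (M : Rep.{0} (ZMod p) L₀.G) (hM : Finite M.V) : ecChi d M = 0 :=
  ec_addFun_eq_zero_of_cyclic' (edChiFun d hp2 q₀) hbase M hM

/-- a representation killed by `p`, as a representation over `ZMod p` (generic coefficient ring, so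
that the module instance of the object is used) -/
def edZModOf {R G : Type} [CommRing R] [Group G] (p : ℕ) (X : Rep.{0} R G)
    (hX : ∀ x : X.V, p • x = 0) : Rep.{0} (ZMod p) G :=
  ecZModRep p hX X.ρ

section general

variable (A : TowerModule ℤ (levelTower L₀)) [A.IsCartesian]
  (hfin : ∀ j, Finite (A.C j)) (hA : ∀ j (x : A.C j), p • x = 0)

/-- the bottom level of `A` as a representation over `ZMod p` -/
def edBase : Rep.{0} (ZMod p) L₀.G :=
  edZModOf p (A.C (baseLevel L₀)) (hA (baseLevel L₀))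

/-- `intRep (edBase A) → A_base`, the identity -/
def edBaseHom : intRep (edBase A hA) ⟶ A.C (baseLevel L₀) :=
  repHomMk (intRep (edBase A hA)) (A.C (baseLevel L₀))
    (@addHomToIntLin (A.C (baseLevel L₀)).V (A.C (baseLevel L₀)).V _ _
      (intRep (edBase A hA)).hV2 (A.C (baseLevel L₀)).hV2 (AddMonoidHom.id _))
    (fun _ _ => rfl)

lemma edBaseHom_isIso : IsIso (edBaseHom A hA) :=
  repIsIso_of_bijective _ Function.bijective_id

/-- `A_{edBase A} → A` -/
def edBaseTowerHom : (ecAM L₀ (edBase A hA)).Hom A :=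
  (inflFromHom (T := levelTower L₀) (baseLevel L₀) (baseLevel_le L₀) (edBaseHom A hA)).comp
    (fromInfl (T := levelTower L₀) (baseLevel L₀) (baseLevel_le L₀) A)

lemma edBaseTowerHom_isIso (j : (levelTower L₀).ι) : IsIso ((edBaseTowerHom A hA).f j) := by
  haveI : IsIso ((inflFromHom (T := levelTower L₀) (baseLevel L₀) (baseLevel_le L₀)
      (edBaseHom A hA)).f j) :=
    repIsIso_of_bijective _ Function.bijective_id
  change IsIso ((inflFromHom (T := levelTower L₀) (baseLevel L₀) (baseLevel_le L₀)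
      (edBaseHom A hA)).f j ≫ (fromInfl (T := levelTower L₀) (baseLevel L₀) (baseLevel_le L₀) A).f j)
  infer_instance

/-- `e_r(edBase A) = |Ext^r(A_S, E)|` -/
theorem ed_ecE_edBase (r : ℕ) :
    ecE d (edBase A hA) r = Nat.card (ExtLim (AS S h₀ A) d.E r) := by
  haveI : ∀ j, IsIso (((edBaseTowerHom A hA).filter (isSPred S L₀) (isSPred_nonempty h₀)
      (isSPred_directed S L₀)).f j) := fun j => edBaseTowerHom_isIso A hA j.1
  exact (Nat.card_congr (ExtLim.congrLeft ((edBaseTowerHom A hA).filter (isSPred S L₀)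
    (isSPred_nonempty h₀) (isSPred_directed S L₀)).toIso d.E r).toEquiv).symm

end general

/-- **Part D**: the Euler characteristic formula follows from the base case (modules coinduced from
cyclic subgroups of order prime to `p`). -/
theorem ec_euler_formula_of_base (hp2 : p ≠ 2) (q₀ : ↥S)
    (hbase : ∀ (U : Subgroup L₀.G), IsCyclic U → ¬ p ∣ Nat.card U →
      ∀ (N : Rep.{0} (ZMod p) U), Finite N.V → ecChi d (Rep.coind U.subtype N) = 0) :
    EcEulerFormula d := by
  intro A _ hfin hA
  have hMfin : Finite (edBase A hA).V := hfin (baseLevel L₀)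
  have h0 := ed_ecChi_eq_zero d hp2 q₀ hbase (edBase A hA) hMfin
  unfold ecChi at h0
  rw [ed_ecE_edBase d A hA 0, ed_ecE_edBase d A hA 1, ed_ecE_edBase d A hA 2] at h0
  -- the cardinalities
  haveI f0 := ed_finite_extLim_E d A hfin hA q₀ 0 (by norm_num)
  haveI f1 := ed_finite_extLim_E d A hfin hA q₀ 1 (by norm_num)
  haveI f2 := ed_finite_extLim_E d A hfin hA q₀ 2 le_rfl
  have p0 : (0 : ℝ) < (Nat.card (ExtLim (AS S h₀ A) d.E 0) : ℕ) := by exact_mod_cast Nat.card_pos
  have p1 : (0 : ℝ) < (Nat.card (ExtLim (AS S h₀ A) d.E 1) : ℕ) := by exact_mod_cast Nat.card_pos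
  have p2 : (0 : ℝ) < (Nat.card (ExtLim (AS S h₀ A) d.E 2) : ℕ) := by exact_mod_cast Nat.card_pos
  have pc : (0 : ℝ) < (Nat.card {x : (edBase A hA).V //
      (edBase A hA).ρ (ecCbar L₀) x = x} : ℕ) := by
    exact_mod_cast ed_card_fix_pos (edBase A hA) hMfin
  have h1 : Real.log (Nat.card (ExtLim (AS S h₀ A) d.E 1) : ℕ) =
      Real.log ((Nat.card (ExtLim (AS S h₀ A) d.E 0) : ℕ) *
        (Nat.card (ExtLim (AS S h₀ A) d.E 2) : ℕ) *
        (Nat.card {x : (edBase A hA).V // (edBase A hA).ρ (ecCbar L₀) x = x} : ℕ)) := by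
    rw [Real.log_mul (by positivity) pc.ne', Real.log_mul p0.ne' p2.ne']
    linarith
  have h2 : ((Nat.card (ExtLim (AS S h₀ A) d.E 1) : ℕ) : ℝ) =
      (Nat.card (ExtLim (AS S h₀ A) d.E 0) : ℕ) * (Nat.card (ExtLim (AS S h₀ A) d.E 2) : ℕ) *
        (Nat.card {x : (edBase A hA).V // (edBase A hA).ρ (ecCbar L₀) x = x} : ℕ) :=
    Real.log_injOn_pos (Set.mem_Ioi.2 p1) (Set.mem_Ioi.2 (by positivity)) h1
  have h3 : Nat.card (ExtLim (AS S h₀ A) d.E 1) =
      Nat.card (ExtLim (AS S h₀ A) d.E 0) * Nat.card (ExtLim (AS S h₀ A) d.E 2) *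
        Nat.card {x : (edBase A hA).V // (edBase A hA).ρ (ecCbar L₀) x = x} := by
    exact_mod_cast h2
  have hc : Nat.card {x : (edBase A hA).V // (edBase A hA).ρ (ecCbar L₀) x = x} =
      Nat.card {x : (A.C (baseLevel L₀)).V // (A.C (baseLevel L₀)).ρ (ecCbar L₀) x = x} := rfl
  have e0 := Nat.card_congr (edEquivZero d A hA).toEquiv
  have e1 := Nat.card_congr (edEquivOne d A hfin hA).toEquiv
  have e2 := (ec_card_extLim_E_two d A hfin hA q₀).2
  rw [← e0, ← e1, h3, hc]
  calc Nat.card (ExtLim (AS S h₀ A) d.E 0) * Nat.card (ExtLim (AS S h₀ A) d.E 2) *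
        Nat.card {x : (A.C (baseLevel L₀)).V // (A.C (baseLevel L₀)).ρ (ecCbar L₀) x = x} *
        Nat.card (HLim (AS S h₀ A) 0)
      = Nat.card (ExtLim (AS S h₀ A) d.E 0) *
        Nat.card {x : (A.C (baseLevel L₀)).V // (A.C (baseLevel L₀)).ρ (ecCbar L₀) x = x} *
        (Nat.card (ExtLim (AS S h₀ A) d.E 2) * Nat.card (HLim (AS S h₀ A) 0)) := by ring
    _ = _ := by rw [e2]; ring

end

end Fermat.Agent.TW
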